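import Fermat.Agent.S18.H905.ConstInst
import Fermat.Agent.Lib.RR.H560.Hpd
import Fermat.Agent.S37.H940.PlaceBasic
import Fermat.Agent.S37.H518.Conserve

/-!
# S37 / R-d instantiation (helper868): function-field inputs for `F_{N,K} = K(j(q^d) : d ∣ N)`

`K` algebraically closed of any characteristic in which the primes dividing `N` are invertible.
Everything is read off from the characteristic-free libraries on main (S24.FF, Lib/RR/H560,
S18/H905, S28/H988):

* `hval_fullC`  : regular functions have values;
* `deg_fullC`   : places have degree one;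
* `hpd_fullC`   : `HasPrincipalDivisors`;
* `finrank_fullC` : `[F_{N,K} : K(j)] = ψ(N)`;
* `sum_zero_inv_j_fullC` : the zero divisor of `1/j` has degree `ψ(N)`.
Transport to the Prelude's `laurentBaseChange L (modularFunctionFieldFull N)` in `Bar` section.
-/

set_option autoImplicit false
set_option linter.unusedSectionVars false

noncomputable section

namespace Fermat.Agent.S37.H868

open AlgebraicCurve ModularCurve IntermediateField
open Fermat.Agent.S24.H504

section Generic

variable {K F : Type*} [Field K] [Field F] [Algebra K F] [IsAlgClosed K]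

/-- regular functions have values (residue field `= K`) -/
theorem hval_of_finite {x : F} (hx : Transcendental K x) [FiniteDimensional K⟮x⟯ F]
    (v : Place K F) (f : F) (hf : 0 ≤ v.ord f) :
    ∃ c : K, InMax v (f - algebraMap K F c) := by
  obtain ⟨a, ha⟩ := Fermat.Agent.S24.FF.exists_const_sub_mem_nonunits v hx
    (Fermat.Agent.S24.FF.mem_of_ord_nonneg v hf)
  exact ⟨a, (Fermat.Agent.S37.H940.inMax_iff_mem_nonunits (P := v)).mpr ha⟩

/-- The zero divisor of `t⁻¹` has degree `[F : K(t)]`. -/
theorem sum_max_ord_inv {x : F} (hx : Transcendental K x) [FiniteDimensional K⟮x⟯ F]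
    (t : F) (ht : Transcendental K t) [FiniteDimensional K⟮t⟯ F]
    (D : Divisor K F) (hD : ∀ P, D P = P.ord t⁻¹) :
    ∑ P ∈ D.support, max (D P) 0 = (Module.finrank K⟮t⟯ F : ℤ) := by
  classical
  have hdeg : ∀ P : Place K F, P.deg = 1 := Fermat.Agent.Lib.RR.H560.hdeg_all x hx
  rw [← Fermat.Agent.Lib.RR.H560.degree_poleD x hx t ht,
    Fermat.Agent.S37.H518.degree_eq_sum_of_deg_one _ hdeg]
  have hpole : ∀ P, Fermat.Agent.Lib.RR.H560.poleD x hx t P = max (D P) 0 := by
    intro P
    rw [Fermat.Agent.Lib.RR.H560.poleD_apply, hD, Place.ord_inv, max_comm]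
  symm
  rw [Finset.sum_congr rfl fun P _ => hpole P]
  refine Finset.sum_subset ?_ ?_
  · intro P hP
    rw [Finsupp.mem_support_iff, hpole] at hP
    rw [Finsupp.mem_support_iff]
    intro h0
    rw [h0] at hP
    simp at hP
  · intro P _ hP
    rw [Finsupp.notMem_support_iff, hpole] at hP
    exact hP

end Generic

section FullC

variable (K : Type*) [Field K] [IsAlgClosed K] (N : ℕ) [NeZero N]
variable (hchar : ∀ p : ℕ, p.Prime → p ∣ N → (p : K) ≠ 0)

open Fermat.Agent.S18.H905

include hchar

theorem hval_fullC (v : Place K (modularFunctionFieldFullC K N))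
    (f : modularFunctionFieldFullC K N) (hf : 0 ≤ v.ord f) :
    ∃ c : K, InMax v (f - algebraMap K (modularFunctionFieldFullC K N) c) :=
  haveI := finiteDimensional_fullC K N hchar
  hval_of_finite (transcendental_jC K N) v f hf

theorem deg_fullC (v : Place K (modularFunctionFieldFullC K N)) : v.deg = 1 :=
  haveI := finiteDimensional_fullC K N hchar
  Fermat.Agent.S24.FF.deg_eq_one v (transcendental_jC K N)

theorem hpd_fullC : HasPrincipalDivisors K (modularFunctionFieldFullC K N) :=
  haveI := finiteDimensional_fullC K N hchar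
  Fermat.Agent.Lib.RR.H560.hasPrincipalDivisors (jC K N) (transcendental_jC K N)

theorem finrank_fullC :
    Module.finrank K⟮jC K N⟯ (modularFunctionFieldFullC K N) = dedekindPsi N := by
  have hdeg := Fermat.Agent.S28.H988.relfinrank_jField_full_eq K N (NeZero.ne N) hchar
  rw [adjoin_jC_eq_comap, IntermediateField.finrank_comap, IntermediateField.fieldRange_val, hdeg]

/-- The zero divisor of `1/j` on `F_{N,K}` has degree `ψ(N)`. -/
theorem sum_zero_inv_j_fullC (u : modularFunctionFieldFullC K N)
    (hu : (u : LaurentSeries K) = (jqModC K)⁻¹)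
    (D : Divisor K (modularFunctionFieldFullC K N)) (hD : ∀ P, D P = P.ord u) :
    ∑ P ∈ D.support, max (D P) 0 = (dedekindPsi N : ℤ) := by
  have := finiteDimensional_fullC K N hchar
  have hu' : u = (jC K N)⁻¹ := Subtype.ext hu
  rw [← finrank_fullC K N hchar]
  exact sum_max_ord_inv (transcendental_jC K N) (jC K N) (transcendental_jC K N) D
    (fun P => by rw [hD, hu'])

end FullC

section Bar

variable (L : Type*) [Field L] [Algebra ℚ L] [IsAlgClosed L] (N : ℕ) [NeZero N]

theorem natCast_ne_zero_of_algebra {p : ℕ} (hp : p ≠ 0) : ((p : ℕ) : L) ≠ 0 := by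
  have : CharZero L := charZero_of_injective_algebraMap (algebraMap ℚ L).injective
  exact Nat.cast_ne_zero.mpr hp

theorem hval_bar (v : Place L (laurentBaseChange L (modularFunctionFieldFull N)))
    (f : laurentBaseChange L (modularFunctionFieldFull N)) (hf : 0 ≤ v.ord f) :
    ∃ c : L, InMax v (f - algebraMap L (laurentBaseChange L (modularFunctionFieldFull N)) c) := by
  have key : ∀ (S : IntermediateField L (LaurentSeries L)),
      S = modularFunctionFieldFullC L N → ∀ (v : Place L S) (f : S), 0 ≤ v.ord f →
        ∃ c : L, InMax v (f - algebraMap L S c) := by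
    rintro S rfl v f hf
    exact hval_fullC L N (fun p hp _ => natCast_ne_zero_of_algebra L hp.ne_zero) v f hf
  exact key _ (Fermat.Agent.S28.H988.laurentBaseChange_full_eq_fullC L N) v f hf

theorem deg_bar (v : Place L (laurentBaseChange L (modularFunctionFieldFull N))) : v.deg = 1 := by
  have key : ∀ (S : IntermediateField L (LaurentSeries L)),
      S = modularFunctionFieldFullC L N → ∀ (v : Place L S), v.deg = 1 := by
    rintro S rfl v
    exact deg_fullC L N (fun p hp _ => natCast_ne_zero_of_algebra L hp.ne_zero) v
  exact key _ (Fermat.Agent.S28.H988.laurentBaseChange_full_eq_fullC L N) v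

theorem hpd_bar : HasPrincipalDivisors L (laurentBaseChange L (modularFunctionFieldFull N)) := by
  have key : ∀ (S : IntermediateField L (LaurentSeries L)),
      S = modularFunctionFieldFullC L N → HasPrincipalDivisors L S := by
    rintro S rfl
    exact hpd_fullC L N (fun p hp _ => natCast_ne_zero_of_algebra L hp.ne_zero)
  exact key _ (Fermat.Agent.S28.H988.laurentBaseChange_full_eq_fullC L N)

theorem sum_zero_inv_j_bar (u : laurentBaseChange L (modularFunctionFieldFull N))
    (hu : (u : LaurentSeries L) = (jqModC L)⁻¹)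
    (D : Divisor L (laurentBaseChange L (modularFunctionFieldFull N))) (hD : ∀ P, D P = P.ord u) :
    ∑ P ∈ D.support, max (D P) 0 = (dedekindPsi N : ℤ) := by
  have key : ∀ (S : IntermediateField L (LaurentSeries L)),
      S = modularFunctionFieldFullC L N → ∀ (u : S), (u : LaurentSeries L) = (jqModC L)⁻¹ →
        ∀ D : Divisor L S, (∀ P, D P = P.ord u) →
          ∑ P ∈ D.support, max (D P) 0 = (dedekindPsi N : ℤ) := by
    rintro S rfl u hu D hD
    exact sum_zero_inv_j_fullC L N (fun p hp _ => natCast_ne_zero_of_algebra L hp.ne_zero) u hu D hD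
  exact key _ (Fermat.Agent.S28.H988.laurentBaseChange_full_eq_fullC L N) u hu D hD

end Bar

end Fermat.Agent.S37.H868
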