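import Mathlib

/-!
# S37 / R-d instantiation (helper868): integrality transfer between the two charts

Pure commutative algebra.  `c : R →+* S`, `x u : S` with `x * u = 1`.
If `b` is integral over `R[u]` (i.e. over the ring hom `R[X] → S, X ↦ u`) then `b * x ^ n` is
integral over `R[x]` for some `n`.
-/

set_option autoImplicit false

namespace Fermat.Agent.S37.H868

open Polynomial

variable {R S : Type*} [CommRing R] [CommRing S]

/-- `g(u) * x ^ d = (reflect d g)(x)` when `x * u = 1` and `deg g ≤ d`. -/
theorem eval₂_mul_pow_eq_eval₂_reflect (c : R →+* S) {x u : S} (hxu : x * u = 1) (g : R[X])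
    (d : ℕ) (hd : g.natDegree ≤ d) :
    g.eval₂ c u * x ^ d = (g.reflect d).eval₂ c x := by
  rw [eval₂_eq_sum_range' c (Nat.lt_succ_of_le hd), eval₂_eq_sum_range' c
    (n := d + 1) (by
      have := natDegree_reflect_le (p := g) (N := d)
      have h2 : max d g.natDegree = d := max_eq_left hd
      omega), Finset.sum_mul]
  rw [← Finset.sum_range_reflect]
  refine Finset.sum_congr rfl fun i hi => ?_
  rw [Finset.mem_range] at hi
  have hi' : d + 1 - 1 - i ≤ d := by omega
  rw [coeff_reflect, revAt_le (by omega : i ≤ d)]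
  have e : d + 1 - 1 - i = d - i := by omega
  rw [e, mul_assoc]
  congr 1
  have : x ^ d = x ^ (d - i) * x ^ i := by rw [← pow_add]; congr 1; omega
  rw [this, ← mul_assoc, ← mul_pow, mul_comm u x, hxu, one_pow, one_mul]

/-- **Chart transfer.** If `b` is integral over `R[u]` and `x * u = 1`, then `b * x ^ n` is
integral over `R[x]` for some `n`. -/
theorem exists_pow_mul_isIntegralElem (c : R →+* S) {x u : S} (hxu : x * u = 1) {b : S}
    (hb : (eval₂RingHom c u).IsIntegralElem b) :
    ∃ n : ℕ, (eval₂RingHom c x).IsIntegralElem (b * x ^ n) := by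
  classical
  obtain ⟨p, hp, hpb⟩ := hb
  -- a common bound for the degrees of the coefficients
  set d : ℕ := (Finset.range (p.natDegree + 1)).sup fun i => (p.coeff i).natDegree with hd
  have hdle : ∀ i, (p.coeff i).natDegree ≤ d := by
    intro i
    by_cases hi : i ∈ Finset.range (p.natDegree + 1)
    · exact Finset.le_sup (f := fun i => (p.coeff i).natDegree) hi
    · rw [Finset.mem_range, not_lt] at hi
      rw [coeff_eq_zero_of_natDegree_lt (by omega), natDegree_zero]
      exact Nat.zero_le _
  refine ⟨d, ?_⟩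
  -- the polynomial over `S`
  set P : S[X] := p.map (eval₂RingHom c u) with hP
  have hPm : P.Monic := hp.map _
  have hPb : P.eval b = 0 := by rw [hP, eval_map]; exact hpb
  set Q : S[X] := scaleRoots P (x ^ d) with hQ
  have hQm : Q.Monic := (monic_scaleRoots_iff _).mpr hPm
  have hQb : Q.eval (b * x ^ d) = 0 := by
    have := scaleRoots_eval₂_eq_zero (RingHom.id S) (p := P) (r := b) (s := x ^ d)
      (by rwa [eval₂_id])
    rw [eval₂_id, RingHom.id_apply, mul_comm] at this
    exact this
  have hlift : Q ∈ lifts (eval₂RingHom c x) := by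
    rw [lifts_iff_coeff_lifts]
    intro i
    rw [hQ, coeff_scaleRoots]
    rcases lt_trichotomy i P.natDegree with hi | hi | hi
    · -- genuine coefficient
      obtain ⟨e, he⟩ : ∃ e, P.natDegree - i = e + 1 := ⟨P.natDegree - i - 1, by omega⟩
      rw [he, pow_succ', ← mul_assoc, hP, coeff_map]
      have h1 : (eval₂RingHom c u) (p.coeff i) * x ^ d
          = (eval₂RingHom c x) ((p.coeff i).reflect d) := by
        rw [coe_eval₂RingHom, coe_eval₂RingHom]
        exact eval₂_mul_pow_eq_eval₂_reflect c hxu _ d (hdle i)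
      rw [h1]
      refine ⟨(p.coeff i).reflect d * (X : R[X]) ^ (d * e), ?_⟩
      rw [map_mul, map_pow, pow_mul]
      congr 2
      rw [coe_eval₂RingHom, eval₂_X]
    · rw [hi, Nat.sub_self, pow_zero, mul_one, hPm.coeff_natDegree]
      exact ⟨1, map_one _⟩
    · rw [coeff_eq_zero_of_natDegree_lt hi, zero_mul]
      exact ⟨0, map_zero _⟩
  obtain ⟨q, hq, -, hqm⟩ := lifts_and_natDegree_eq_and_monic hlift hQm
  refine ⟨q, hqm, ?_⟩
  rw [← eval_map, hq]
  exact hQb

end Fermat.Agent.S37.H868
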