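import Mathlib
import Fermat.Agent.S37.H868.Trans

/-!
# S37 / R-d instantiation (helper868): generic chart algebras

For an `A`-algebra `V` and `t : V`, `chartOf t` is the `A`-subalgebra of elements integral over
`A[t]` (integrality with respect to the ring hom `A[X] → V`, `X ↦ t`).
-/

set_option autoImplicit false
set_option linter.unusedSectionVars false

noncomputable section

namespace Fermat.Agent.S37.H868

open Polynomial

variable {A V : Type*} [CommRing A] [CommRing V] [Algebra A V]

/-- evaluation `A[X] → V`, `X ↦ t` -/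
def evalT (t : V) : A[X] →+* V := eval₂RingHom (algebraMap A V) t

theorem evalT_C (t : V) (a : A) : evalT t (C a) = algebraMap A V a := by
  rw [evalT, coe_eval₂RingHom, eval₂_C]

theorem evalT_X (t : V) : evalT (A := A) t X = t := by
  rw [evalT, coe_eval₂RingHom, eval₂_X]

/-- The chart algebra of elements integral over `A[t]`. -/
def chartOf (t : V) : Subalgebra A V where
  carrier := {y | (evalT (A := A) t).IsIntegralElem y}
  mul_mem' := fun ha hb => RingHom.IsIntegralElem.mul _ ha hb
  add_mem' := fun ha hb => RingHom.IsIntegralElem.add _ ha hb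
  algebraMap_mem' := fun a => by
    have := (evalT (A := A) t).isIntegralElem_map (x := Polynomial.C a)
    rw [evalT_C] at this
    exact this

theorem mem_chartOf {t y : V} :
    y ∈ chartOf (A := A) t ↔ (evalT (A := A) t).IsIntegralElem y := Iff.rfl

theorem self_mem_chartOf (t : V) : t ∈ chartOf (A := A) t := by
  have := (evalT (A := A) t).isIntegralElem_map (x := (X : A[X]))
  rw [evalT_X] at this
  exact this

theorem evalT_mem_chartOf (t : V) (g : A[X]) : evalT t g ∈ chartOf (A := A) t :=
  (evalT (A := A) t).isIntegralElem_map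

/-- chart transition for inverse coordinates -/
theorem chart_trans {x u : V} (hxu : x * u = 1) {b : V}
    (hb : b ∈ chartOf (A := A) u) : ∃ n : ℕ, b * x ^ n ∈ chartOf (A := A) x :=
  exists_pow_mul_isIntegralElem (algebraMap A V) hxu hb

/-- Images of chart elements under a ring hom are integral over the image of `A[t]`. -/
theorem isIntegralElem_map_of_mem_chartOf {W : Type*} [CommRing W] (φ : V →+* W) {t b : V}
    (hb : b ∈ chartOf (A := A) t) :
    (eval₂RingHom (φ.comp (algebraMap A V)) (φ t)).IsIntegralElem (φ b) := by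
  obtain ⟨p, hp, hpb⟩ := hb
  refine ⟨p, hp, ?_⟩
  have hcomp : φ.comp (evalT (A := A) t) = eval₂RingHom (φ.comp (algebraMap A V)) (φ t) := by
    apply Polynomial.ringHom_ext
    · intro a
      rw [RingHom.comp_apply, evalT_C, coe_eval₂RingHom, eval₂_C, RingHom.comp_apply]
    · rw [RingHom.comp_apply, evalT_X, coe_eval₂RingHom, eval₂_X]
  rw [← hcomp, ← hom_eval₂, hpb, map_zero]

/-- If `W ⊆ W'` is a subring containing the image of `A` and `φ t`, and `W` is integrally
closed in `W'`-sense "integral elements lie in `W`", then `φ b ∈ W`. Stated with a predicate. -/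
theorem isIntegral_subring_of_mem_chartOf {W : Type*} [CommRing W] (φ : V →+* W)
    (O : Subring W) (hA : ∀ a : A, φ (algebraMap A V a) ∈ O) {t b : V} (ht : φ t ∈ O)
    (hb : b ∈ chartOf (A := A) t) : IsIntegral O (φ b) := by
  obtain ⟨p, hp, hpb⟩ := isIntegralElem_map_of_mem_chartOf φ hb
  let c' : A →+* O := (φ.comp (algebraMap A V)).codRestrict O hA
  let ψ : A[X] →+* O := eval₂RingHom c' ⟨φ t, ht⟩
  refine ⟨p.map ψ, hp.map ψ, ?_⟩
  rw [eval₂_map]
  have hcomp : (algebraMap O W).comp ψ = eval₂RingHom (φ.comp (algebraMap A V)) (φ t) := by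
    apply Polynomial.ringHom_ext
    · intro a
      simp only [ψ, c', RingHom.comp_apply, coe_eval₂RingHom, eval₂_C]
      rfl
    · simp only [ψ, RingHom.comp_apply, coe_eval₂RingHom, eval₂_X]
      rfl
  rw [hcomp]
  exact hpb

end Fermat.Agent.S37.H868
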