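import Fermat.Agent.S37.H518.Wrap
import Fermat.Agent.S37.H868.ChartGen

/-!
# S37 / R-d instantiation (helper868): the two `j`-charts of `X₀(N)` over a valuation ring

For a valuation subring `A ⊆ L` (`L ⊇ ℚ`) with a ring hom `π : A → k` we work in helper518's ring
`IntFun A π N` of integral modular `q`-series with reduction in `F_k`.

* `jInvS R`        : the formal inverse `q · jNum⁻¹` of `j` over any commutative ring;
* `jI`, `jInvI`    : `j` and `1/j` as elements of `IntFun A π N`;
* `B0`, `B1`       : the chart algebras `{y integral over A[j]}` and `{y integral over A[1/j]}`;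
* `trans01`, `trans10` : the chart transition fields of `H518.TwoCharts`.
-/

set_option autoImplicit false
set_option linter.unusedSectionVars false

noncomputable section

namespace Fermat.Agent.S37.H868

open AlgebraicCurve ModularCurve HahnSeries Polynomial
open Fermat.Agent.S37.H518

/-! ### The formal inverse of `j` -/

section Formal

variable (R : Type*) [CommRing R]

/-- The inverse of `jNum` in `ℤ⟦q⟧`. -/
def jNumInv : PowerSeries ℤ := jNum.invOfUnit 1

theorem jNum_mul_jNumInv : jNum * jNumInv = 1 :=
  PowerSeries.mul_invOfUnit _ _ (by rw [constantCoeff_jNum]; rfl)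

/-- The formal `q`-expansion of `1/j` over `R`. -/
def jInvS : LaurentSeries R :=
  HahnSeries.single (1 : ℤ) 1 *
    HahnSeries.ofPowerSeries ℤ R (jNumInv.map (Int.castRingHom R))

theorem jqModC_mul_jInvS : jqModC R * jInvS R = 1 := by
  have h1 : (HahnSeries.single (-1 : ℤ) (1 : R)) * HahnSeries.single (1 : ℤ) (1 : R) = 1 := by
    rw [HahnSeries.single_mul_single]
    norm_num
  have h2 : HahnSeries.ofPowerSeries ℤ R (jNum.map (Int.castRingHom R)) *
      HahnSeries.ofPowerSeries ℤ R (jNumInv.map (Int.castRingHom R)) = 1 := by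
    rw [← map_mul, ← map_mul, jNum_mul_jNumInv, map_one, map_one]
  calc jqModC R * jInvS R
      = (HahnSeries.single (-1 : ℤ) (1 : R) * HahnSeries.single (1 : ℤ) (1 : R)) *
        (HahnSeries.ofPowerSeries ℤ R (jNum.map (Int.castRingHom R)) *
          HahnSeries.ofPowerSeries ℤ R (jNumInv.map (Int.castRingHom R))) := by
        rw [jqModC, jInvS]; ring
    _ = 1 := by rw [h1, h2, one_mul]

theorem jInvS_mul_jqModC : jInvS R * jqModC R = 1 := by
  rw [mul_comm]; exact jqModC_mul_jInvS R

variable {R} in
theorem coeffMap_jInvS {S : Type*} [CommRing S] (f : R →+* S) :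
    coeffMap f (jInvS R) = jInvS S := by
  rw [jInvS, map_mul, coeffMap_single, map_one, coeffMap_ofPowerSeries,
    ← RingHom.comp_apply (PowerSeries.map f) (PowerSeries.map (Int.castRingHom R)),
    ← PowerSeries.map_comp, RingHom.ext_int (f.comp (Int.castRingHom R)) (Int.castRingHom S)]
  rfl

theorem jInvS_eq_inv (K : Type*) [Field K] : jInvS K = (jqModC K)⁻¹ :=
  eq_inv_of_mul_eq_one_right (jqModC_mul_jInvS K)

end Formal

/-! ### `j` and `1/j` in `IntFun` -/

section Charts

variable {L : Type*} [Field L] [Algebra ℚ L] (A : ValuationSubring L)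
variable {k : Type*} [Field k] (π : A →+* k) (N : ℕ) [NeZero N]

theorem jqModC_mem_laurentBaseChange :
    jqModC L ∈ laurentBaseChange L (modularFunctionFieldFull N) := by
  have h1 : jqModC ℚ ∈ modularFunctionFieldFull N := by
    rw [← modularFunctionFieldFullC_rat]; exact jqModC_mem_full ℚ N
  have := coeffEmb_mem_laurentBaseChange L h1
  rwa [coeffEmb, coeffMap_jqModC] at this

theorem jqModC_mem_intFun : jqModC A ∈ IntFun A π N := by
  refine ⟨?_, ?_⟩
  · rw [coeffMap_jqModC]; exact jqModC_mem_laurentBaseChange N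
  · rw [coeffMap_jqModC]; exact jqModC_mem_full k N

theorem jInvS_mem_intFun : jInvS A ∈ IntFun A π N := by
  refine ⟨?_, ?_⟩
  · rw [coeffMap_jInvS, jInvS_eq_inv]; exact inv_mem (jqModC_mem_laurentBaseChange N)
  · rw [coeffMap_jInvS, jInvS_eq_inv]; exact inv_mem (jqModC_mem_full k N)

/-- `j` as an integral modular function. -/
def jI : IntFun A π N := ⟨jqModC A, jqModC_mem_intFun A π N⟩

/-- `1/j` as an integral modular function. -/
def jInvI : IntFun A π N := ⟨jInvS A, jInvS_mem_intFun A π N⟩

@[simp] theorem coe_jI : ((jI A π N : IntFun A π N) : LaurentSeries A) = jqModC A := rfl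

@[simp] theorem coe_jInvI : ((jInvI A π N : IntFun A π N) : LaurentSeries A) = jInvS A := rfl

theorem jI_mul_jInvI : jI A π N * jInvI A π N = 1 :=
  Subtype.ext (jqModC_mul_jInvS A)

/-- Integrality in `IntFun` is integrality of the underlying series. -/
theorem mem_chartOf_iff_series {t y : IntFun A π N} :
    y ∈ chartOf (A := A) t ↔
      (eval₂RingHom (HahnSeries.C : A →+* LaurentSeries A) (t : LaurentSeries A)).IsIntegralElem
        (y : LaurentSeries A) := by
  have hcomp : (IntFun A π N).subtype.comp (evalT (A := A) t)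
      = eval₂RingHom (HahnSeries.C : A →+* LaurentSeries A) (t : LaurentSeries A) := by
    apply Polynomial.ringHom_ext
    · intro a
      rw [RingHom.comp_apply, evalT_C, coe_eval₂RingHom, eval₂_C]
      rfl
    · rw [RingHom.comp_apply, evalT_X, coe_eval₂RingHom, eval₂_X]
      rfl
  constructor
  · rintro ⟨p, hp, hpy⟩
    refine ⟨p, hp, ?_⟩
    rw [← hcomp]
    have := congrArg (IntFun A π N).subtype hpy
    rw [hom_eval₂, map_zero] at this
    exact this
  · rintro ⟨p, hp, hpy⟩
    refine ⟨p, hp, ?_⟩
    apply Subtype.ext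
    show (IntFun A π N).subtype (eval₂ _ y p) = 0
    rw [hom_eval₂, hcomp]
    exact hpy

/-- The finite chart: integral over `A[j]`. -/
def B0 : Subalgebra A (IntFun A π N) := chartOf (A := A) (jI A π N)

/-- The chart at infinity: integral over `A[1/j]`. -/
def B1 : Subalgebra A (IntFun A π N) := chartOf (A := A) (jInvI A π N)

theorem jI_mem_B0 : jI A π N ∈ B0 A π N := self_mem_chartOf _

theorem jInvI_mem_B1 : jInvI A π N ∈ B1 A π N := self_mem_chartOf _

theorem trans01 : ∀ b ∈ B1 A π N, ∃ n : ℕ, b * jI A π N ^ n ∈ B0 A π N :=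
  fun _ hb => chart_trans (jI_mul_jInvI A π N) hb

theorem trans10 : ∀ b ∈ B0 A π N, ∃ n : ℕ, b * jInvI A π N ^ n ∈ B1 A π N :=
  fun _ hb => chart_trans (by rw [mul_comm]; exact jI_mul_jInvI A π N) hb

end Charts

end Fermat.Agent.S37.H868
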