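import Fermat.Agent.S37.H700.GaussMain
import Fermat.Agent.S28.H988.Degree
import Fermat.Agent.S37.H868.ChartDefs

/-!
# S37 / R-d instantiation (helper868): the field `frac` of `H518.TwoCharts` for `X₀(N)`

From `S28.CoreData N k` (`k = A/𝔪`):

* `intMonomial_mem_B0` : the integral monomials `y ∈ ℤ[j(q^d) : d ∣ N]`, base changed to `A`,
  lie in the finite chart `B0` (they are integral over `A[j]`);
* `frac_X0` : every nonzero `f ∈ F̄_N` is `μ · a / b` with `a, b ∈ B0` of nonzero reduction and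
  `μ ∈ Q̄ˣ` (normal form of helper700 + normalisation).
-/

set_option autoImplicit false
set_option linter.unusedSectionVars false

noncomputable section

namespace Fermat.Agent.S37.H868

open AlgebraicCurve ModularCurve HahnSeries Polynomial
open Fermat.Agent.S37.H518 Fermat.Agent.S37.H700
open Fermat.Agent.S28 (jField intDivisorExpansions CoreData evalAt)

variable (N : ℕ) [NeZero N] (A : ValuationSubring Qb)

/-- the underlying series of the elements of `B0`, as a subring of `A((q))` -/
def B0Series : Subring (LaurentSeries A) :=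
  (B0 A (IsLocalRing.residue A) N).toSubring.map (IntFun A (IsLocalRing.residue A) N).subtype

theorem mem_B0Series {z : LaurentSeries A} :
    z ∈ B0Series N A ↔ ∃ h : z ∈ IntFun A (IsLocalRing.residue A) N,
      (⟨z, h⟩ : IntFun A (IsLocalRing.residue A) N) ∈ B0 A (IsLocalRing.residue A) N := by
  constructor
  · rintro ⟨w, hw, rfl⟩
    exact ⟨w.2, hw⟩
  · rintro ⟨h, hw⟩
    exact ⟨⟨z, h⟩, hw, rfl⟩

theorem qExpand_jqModC_mem_intFun {d : ℕ} [NeZero d] (hd : d ∣ N) :
    qExpand A d (jqModC A) ∈ IntFun A (IsLocalRing.residue A) N := by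
  refine ⟨?_, ?_⟩
  · rw [coeffMap_qExpand, coeffMap_jqModC, Fermat.Agent.S28.H988.laurentBaseChange_full_eq_fullC]
    exact jqModCd_mem_full _ N hd
  · rw [coeffMap_qExpand, coeffMap_jqModC]
    exact jqModCd_mem_full _ N hd

theorem coeffMap_comp_evalAt :
    (coeffMap (Int.castRingHom A)).comp (evalAt (jqModC ℤ))
      = (eval₂RingHom (HahnSeries.C : A →+* LaurentSeries A) (jqModC A)).comp
          (Polynomial.mapRingHom (Int.castRingHom A)) := by
  apply Polynomial.ringHom_ext
  · intro n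
    simp only [RingHom.comp_apply, AlgHom.toRingHom_eq_coe, RingHom.coe_coe, aeval_C,
      coe_mapRingHom, Polynomial.map_C, coe_eval₂RingHom, eval₂_C]
    rw [eq_intCast (algebraMap ℤ (LaurentSeries ℤ)) n, map_intCast,
      eq_intCast (Int.castRingHom A) n, map_intCast]
  · simp only [RingHom.comp_apply, AlgHom.toRingHom_eq_coe, RingHom.coe_coe, aeval_X,
      coe_mapRingHom, map_X, coe_eval₂RingHom, eval₂_X]
    exact coeffMap_jqModC _

/-- the generators `j(q^d)` lie in the finite chart -/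
theorem qExpand_jqModC_mem_B0Series
    (hint : ∀ (d : ℕ) [NeZero d], d ∣ N →
      ∃ P : Polynomial (Polynomial ℤ), P.Monic ∧
        P.eval₂ (evalAt (jqModC ℤ)) (qExpand ℤ d (jqModC ℤ)) = 0)
    {d : ℕ} [NeZero d] (hd : d ∣ N) :
    qExpand A d (jqModC A) ∈ B0Series N A := by
  rw [mem_B0Series]
  refine ⟨qExpand_jqModC_mem_intFun N A hd, ?_⟩
  rw [B0, mem_chartOf_iff_series]
  obtain ⟨P, hP, hP0⟩ := hint d hd
  refine ⟨P.map (Polynomial.mapRingHom (Int.castRingHom A)), hP.map _, ?_⟩
  rw [eval₂_map]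
  have h1 := congrArg (coeffMap (Int.castRingHom A)) hP0
  rw [hom_eval₂, map_zero, coeffMap_comp_evalAt, coeffMap_qExpand, coeffMap_jqModC] at h1
  exact h1

/-- **Integral monomials lie in the finite chart.** -/
theorem intMonomial_mem_B0Series
    (hint : ∀ (d : ℕ) [NeZero d], d ∣ N →
      ∃ P : Polynomial (Polynomial ℤ), P.Monic ∧
        P.eval₂ (evalAt (jqModC ℤ)) (qExpand ℤ d (jqModC ℤ)) = 0)
    {y : LaurentSeries ℤ} (hy : y ∈ Subring.closure (intDivisorExpansions N)) :
    coeffMap (Int.castRingHom A) y ∈ B0Series N A := by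
  have hle : Subring.closure (intDivisorExpansions N)
      ≤ (B0Series N A).comap (coeffMap (Int.castRingHom A)) := by
    rw [Subring.closure_le]
    rintro x ⟨d, hd, hdN, rfl⟩
    rw [SetLike.mem_coe, Subring.mem_comap, coeffMap_qExpand, coeffMap_jqModC]
    exact qExpand_jqModC_mem_B0Series N A hint hdN
  exact hle hy

theorem evalJ_mem_B0Series (Q : A[X]) : evalJ A Q ∈ B0Series N A := by
  rw [mem_B0Series]
  have h1 : evalJ A Q ∈ IntFun A (IsLocalRing.residue A) N := by
    have := (evalT (A := A) (jI A (IsLocalRing.residue A) N) Q).2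
    have e : ((evalT (A := A) (jI A (IsLocalRing.residue A) N) Q :
        IntFun A (IsLocalRing.residue A) N) : LaurentSeries A) = evalJ A Q := by
      show (IntFun A (IsLocalRing.residue A) N).subtype (eval₂ _ _ Q) = _
      rw [hom_eval₂]
      rfl
    rwa [e] at this
  refine ⟨h1, ?_⟩
  have h2 := evalT_mem_chartOf (A := A) (jI A (IsLocalRing.residue A) N) Q
  have e : (⟨evalJ A Q, h1⟩ : IntFun A (IsLocalRing.residue A) N)
      = evalT (A := A) (jI A (IsLocalRing.residue A) N) Q := by
    apply Subtype.ext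
    show evalJ A Q = (IntFun A (IsLocalRing.residue A) N).subtype (eval₂ _ _ Q)
    rw [hom_eval₂]
    rfl
  rw [e]
  exact h2

variable {N A}

/-- **The field `frac`**: every nonzero function is, up to a nonzero constant, a quotient of two
elements of the finite chart with nonzero reductions. -/
theorem frac_X0 (hcore : CoreData N (IsLocalRing.ResidueField A))
    (f : laurentBaseChange Qb (modularFunctionFieldFull N)) (hf : f ≠ 0) :
    ∃ a ∈ B0 A (IsLocalRing.residue A) N, ∃ b ∈ B0 A (IsLocalRing.residue A) N,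
      rhoF A (IsLocalRing.residue A) N a ≠ 0 ∧ rhoF A (IsLocalRing.residue A) N b ≠ 0 ∧
      ∃ μ : Qb, μ ≠ 0 ∧ f * iotaF A (IsLocalRing.residue A) N b
        = algebraMap Qb (laurentBaseChange Qb (modularFunctionFieldFull N)) μ *
            iotaF A (IsLocalRing.residue A) N a := by
  classical
  obtain ⟨n, y, hy_mem, hy_span, hy_ind⟩ := hcore.exists_basis
  have hfU : (f : LaurentSeries Qb) ≠ 0 := fun h => hf (Subtype.ext h)
  obtain ⟨Q₀, P₀, hQ₀, h₀⟩ := exists_denominator Qb y
    (mem_spanL_of_mem_baseChange Qb y N hy_mem hy_span f.2)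
  have hQ₀e : evalJ Qb Q₀ ≠ 0 := fun h => hQ₀ ((evalJ_eq_zero_iff Qb).mp h)
  have hP₀ : ∃ i, P₀ i ≠ 0 := by
    by_contra hcon
    push Not at hcon
    have : evalJ Qb Q₀ * (f : LaurentSeries Qb) = 0 := by
      rw [h₀]
      exact Finset.sum_eq_zero fun i _ => by rw [hcon i, evalJ_zero, zero_mul]
    exact (mul_ne_zero hQ₀e hfU) this
  obtain ⟨cQ, hcQ, Q', hQ', u₀, hQ'red⟩ := normalize_family A (fun _ : Unit => Q₀) ⟨(), hQ₀⟩
  obtain ⟨cP, hcP, P', hP', i₀, hi₀⟩ := normalize_family A P₀ hP₀
  set b : LaurentSeries A := evalJ A (Q' ()) with hb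
  set a : LaurentSeries A := ∑ i, evalJ A (P' i) * coeffMap (Int.castRingHom A) (y i) with ha
  have hbL : coeffMap A.subtype b = HahnSeries.C cQ * evalJ Qb Q₀ := by
    rw [hb, coeffMap_evalJ, hQ' (), evalJ_mul, evalJ_C]
  have haL : coeffMap A.subtype a = HahnSeries.C cP * (evalJ Qb Q₀ * (f : LaurentSeries Qb)) := by
    rw [ha, map_sum, h₀, Finset.mul_sum]
    refine Finset.sum_congr rfl fun i _ => ?_
    rw [map_mul, coeffMap_evalJ, hP' i, evalJ_mul, evalJ_C, coeffMap_coeffMap, mul_assoc]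
    congr 2
  -- membership in the chart
  have hbB : b ∈ B0Series N A := evalJ_mem_B0Series N A _
  have haB : a ∈ B0Series N A :=
    Subring.sum_mem _ fun i _ =>
      Subring.mul_mem _ (evalJ_mem_B0Series N A _)
        (intMonomial_mem_B0Series N A (fun d _ hd => hcore.integral d hd) (hy_mem i))
  obtain ⟨hbI, hbB0⟩ := (mem_B0Series N A).mp hbB
  obtain ⟨haI, haB0⟩ := (mem_B0Series N A).mp haB
  -- reductions
  have hbred : coeffMap (IsLocalRing.residue A) b ≠ 0 := by
    rw [hb, coeffMap_evalJ]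
    exact fun h => hQ'red ((evalJ_eq_zero_iff _).mp h)
  have hared : coeffMap (IsLocalRing.residue A) a ≠ 0 := by
    intro h
    rw [ha, map_sum] at h
    have h' : ∑ i, evalJ (IsLocalRing.ResidueField A) ((P' i).map (IsLocalRing.residue A)) *
        coeffMap (Int.castRingHom (IsLocalRing.ResidueField A)) (y i) = 0 := by
      rw [← h]
      refine Finset.sum_congr rfl fun i _ => ?_
      rw [map_mul, coeffMap_evalJ, coeffMap_coeffMap]
      congr 1
    exact hi₀ (eq_zero_of_sum_evalJ_eq_zero _ hy_ind _ h' i₀)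
  refine ⟨⟨a, haI⟩, haB0, ⟨b, hbI⟩, hbB0, fun h => hared (congrArg Subtype.val h),
    fun h => hbred (congrArg Subtype.val h), cQ * cP⁻¹, mul_ne_zero hcQ (inv_ne_zero hcP), ?_⟩
  apply Subtype.ext
  show (f : LaurentSeries Qb) * coeffMap A.subtype b
    = algebraMap Qb (LaurentSeries Qb) (cQ * cP⁻¹) * coeffMap A.subtype a
  rw [hbL, haL, algebraMap_laurentSeries_eq_single]
  have hC : ∀ c : Qb, (HahnSeries.single 0 c : LaurentSeries Qb) = HahnSeries.C c := fun _ => rfl
  rw [hC, map_mul]
  have hcc : (HahnSeries.C cP⁻¹ : LaurentSeries Qb) * HahnSeries.C cP = 1 := by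
    rw [← map_mul, inv_mul_cancel₀ hcP, map_one]
  linear_combination (-(HahnSeries.C cQ : LaurentSeries Qb) * evalJ Qb Q₀ * (f : LaurentSeries Qb))
    * hcc

end Fermat.Agent.S37.H868
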