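import Fermat.Agent.S37.H518.Charts
import Fermat.Agent.S37.H940.PlaceBasic
import Fermat.Agent.S24.FFBasic
import Fermat.Agent.S37.H868.ChartGen

/-!
# S37 / R-d instantiation (helper868): places centred on a chart

Generic facts (any characteristic) relating places of a function field to a chart algebra
`chartOf t` (elements integral over `A[t]`):

* `ord_nonneg_of_mem_chartOf` : if `t` is regular at `P`, every chart function is regular at `P`;
* `pc_chartOf`   : if moreover `t` has a value in `A` at `P` (and values exist at `P`), every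
  chart function has a value in `A` at `P` (= `H518.PC`);
* `qc_chartOf`   : the `H518.QC` version on the special fibre;
* `cover_P`, `cover_Q` : for inverse coordinates `x * u = 1` the two charts cover all places.
-/

set_option autoImplicit false
set_option linter.unusedSectionVars false

noncomputable section

namespace Fermat.Agent.S37.H868

open AlgebraicCurve Polynomial
open Fermat.Agent.S24.H504 Fermat.Agent.S37.H518

section Regular

variable {K F : Type*} [Field K] [Field F] [Algebra K F]
variable {A V : Type*} [CommRing A] [CommRing V] [Algebra A V]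

/-- If the constants and `t` are regular at `P`, every element of `chartOf t` is regular. -/
theorem ord_nonneg_of_mem_chartOf (P : Place K F) (φ : V →+* F)
    (hA : ∀ a : A, 0 ≤ P.ord (φ (algebraMap A V a))) {t b : V} (ht : 0 ≤ P.ord (φ t))
    (hb : b ∈ chartOf (A := A) t) : 0 ≤ P.ord (φ b) := by
  have hint : IsIntegral P.toValuationSubring.toSubring (φ b) :=
    isIntegral_subring_of_mem_chartOf φ P.toValuationSubring.toSubring
      (fun a => Fermat.Agent.S24.FF.mem_of_ord_nonneg P (hA a))
      (Fermat.Agent.S24.FF.mem_of_ord_nonneg P ht) hb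
  have hint' : IsIntegral P.toValuationSubring (φ b) := hint
  obtain ⟨y, hy⟩ := IsIntegrallyClosed.isIntegral_iff.mp hint'
  rw [← hy]
  exact Fermat.Agent.S24.FF.ord_nonneg_of_mem P y.2

end Regular

section Value

variable {K F : Type*} [Field K] [Field F] [Algebra K F]

/-- `f` has the value `c` at `P`, in terms of the residue map. -/
theorem inMax_sub_iff_residue (P : Place K F) (f : F) (c : K) :
    InMax P (f - algebraMap K F c) ↔
      ∃ hf : f ∈ P.toValuationSubring,
        IsLocalRing.residue P.toValuationSubring ⟨f, hf⟩ = algebraMap K P.ResidueField c := by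
  have hc : algebraMap K F c ∈ P.toValuationSubring := P.algebraMap_mem' c
  have key : ∀ g : F, InMax P g ↔ ∃ h : g ∈ P.toValuationSubring,
      (⟨g, h⟩ : P.toValuationSubring) ∈ IsLocalRing.maximalIdeal P.toValuationSubring :=
    fun g => Fermat.Agent.S37.H940.inMax_iff_exists_mem_maximalIdeal (P := P) (f := g)
  rw [key]
  constructor
  · rintro ⟨h1, h2⟩
    have hf : f ∈ P.toValuationSubring := by
      have := add_mem h1 hc
      rwa [sub_add_cancel] at this
    refine ⟨hf, ?_⟩
    rw [← IsLocalRing.residue_eq_zero_iff] at h2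
    have e : (⟨f - algebraMap K F c, h1⟩ : P.toValuationSubring)
        = ⟨f, hf⟩ - algebraMap K P.toValuationSubring c := Subtype.ext rfl
    rw [e, map_sub, sub_eq_zero] at h2
    rw [h2]
    rfl
  · rintro ⟨hf, h2⟩
    refine ⟨sub_mem hf hc, ?_⟩
    rw [← IsLocalRing.residue_eq_zero_iff]
    have e : (⟨f - algebraMap K F c, sub_mem hf hc⟩ : P.toValuationSubring)
        = ⟨f, hf⟩ - algebraMap K P.toValuationSubring c := Subtype.ext rfl
    rw [e, map_sub, sub_eq_zero, h2]
    rfl

end Value

section PC

variable {L F : Type*} [Field L] [Field F] [Algebra L F] {A : ValuationSubring L}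
variable {V : Type*} [CommRing V] [Algebra A V]

/-- **Centred places, generic fibre.** If `t` has a value `a ∈ A` at `P` and every regular
function has a value at `P`, then `P` is centred on `chartOf t` with integral values. -/
theorem pc_chartOf (ι : V →+* F) (hι : ∀ a : A, ι (algebraMap A V a) = algebraMap L F (a : L))
    (P : Place L F)
    (hval : ∀ f : F, 0 ≤ P.ord f → ∃ c : L, InMax P (f - algebraMap L F c))
    {t : V} {a : A} (ht : InMax P (ι t - algebraMap L F (a : L))) :
    PC ι (chartOf (A := A) t) P := by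
  intro b hb
  have hAreg : ∀ a : A, 0 ≤ P.ord (ι (algebraMap A V a)) := fun a => by
    rw [hι]; exact (Fermat.Agent.S24.FF.ord_algebraMap P _).ge
  have htreg : 0 ≤ P.ord (ι t) := by
    have h1 := (InMax.ordGE_zero ht).add (ordGE_algebraMap (v := P) (a : L))
    rw [sub_add_cancel] at h1
    exact ordGE_zero_iff.mp h1
  have hbreg : 0 ≤ P.ord (ι b) := ord_nonneg_of_mem_chartOf P ι hAreg htreg hb
  obtain ⟨β, hβ⟩ := hval (ι b) hbreg
  -- residues
  obtain ⟨htO, htres⟩ := (inMax_sub_iff_residue P (ι t) a).mp ht
  obtain ⟨hbO, hbres⟩ := (inMax_sub_iff_residue P (ι b) β).mp hβ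
  -- the integrality equation over `O_P`
  obtain ⟨p, hp, hpb⟩ := isIntegralElem_map_of_mem_chartOf ι hb
  let O := P.toValuationSubring
  have hAO : ∀ a : A, ι (algebraMap A V a) ∈ O := fun a =>
    Fermat.Agent.S24.FF.mem_of_ord_nonneg P (hAreg a)
  let c' : A →+* O := (ι.comp (algebraMap A V)).codRestrict O.toSubring hAO
  let ψ : A[X] →+* O := eval₂RingHom c' ⟨ι t, htO⟩
  have hcomp : (algebraMap O F).comp ψ = eval₂RingHom (ι.comp (algebraMap A V)) (ι t) := by
    apply Polynomial.ringHom_ext
    · intro a
      simp only [ψ, c', RingHom.comp_apply, coe_eval₂RingHom, eval₂_C]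
      rfl
    · simp only [ψ, RingHom.comp_apply, coe_eval₂RingHom, eval₂_X]
      rfl
  have hO : eval₂ ψ (⟨ι b, hbO⟩ : O) p = 0 := by
    apply Subtype.ext
    have : ((eval₂ ψ (⟨ι b, hbO⟩ : O) p : O) : F) = eval₂ ((algebraMap O F).comp ψ) (ι b) p :=
      hom_eval₂ p ψ (algebraMap O F) ⟨ι b, hbO⟩
    rw [this, hcomp]
    exact hpb
  -- apply the residue map
  have hres := congrArg (IsLocalRing.residue O) hO
  rw [hom_eval₂, map_zero, hbres] at hres
  -- identify the coefficient map
  have hcoef : (IsLocalRing.residue O).comp ψ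
      = (algebraMap L P.ResidueField).comp (A.subtype.comp (evalRingHom a)) := by
    apply Polynomial.ringHom_ext
    · intro a'
      simp only [ψ, c', RingHom.comp_apply, coe_eval₂RingHom, eval₂_C, coe_evalRingHom, eval_C]
      have e : (RingHom.codRestrict (ι.comp (algebraMap A V)) O.toSubring hAO) a'
          = algebraMap L O (a' : L) := by
        apply Subtype.ext
        show ι (algebraMap A V a') = algebraMap L F (a' : L)
        exact hι a'
      rw [e]
      rfl
    · simp only [ψ, RingHom.comp_apply, coe_eval₂RingHom, eval₂_X, coe_evalRingHom, eval_X]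
      exact htres
  rw [hcoef, ← hom_eval₂ p (A.subtype.comp (evalRingHom a)) (algebraMap L P.ResidueField) β]
    at hres
  have hroot : eval₂ (A.subtype.comp (evalRingHom a)) β p = 0 :=
    (map_eq_zero_iff _ (algebraMap L P.ResidueField).injective).mp hres
  -- `β` is integral over `A`
  have hβint : IsIntegral A β := by
    refine ⟨p.map (evalRingHom a), hp.map _, ?_⟩
    rw [eval₂_map]
    exact hroot
  obtain ⟨β', hβ'⟩ := IsIntegrallyClosed.isIntegral_iff.mp hβint
  refine ⟨β', ?_⟩
  have : ((β' : A) : L) = β := hβ'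
  rw [this]
  exact hβ

/-- **Covering of the generic fibre** by the charts of two inverse coordinates. -/
theorem cover_P_chartOf (ι : V →+* F)
    (hι : ∀ a : A, ι (algebraMap A V a) = algebraMap L F (a : L))
    (hval : ∀ (P : Place L F) (f : F), 0 ≤ P.ord f → ∃ c : L, InMax P (f - algebraMap L F c))
    {x u : V} (hxu : x * u = 1) (P : Place L F) :
    PC ι (chartOf (A := A) x) P ∨ PC ι (chartOf (A := A) u) P := by
  have hmul : ι x * ι u = 1 := by rw [← map_mul, hxu, map_one]
  have hx0 : ι x ≠ 0 := left_ne_zero_of_mul_eq_one hmul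
  have hu0 : ι u ≠ 0 := right_ne_zero_of_mul_eq_one hmul
  have hord : P.ord (ι x) + P.ord (ι u) = 0 := by
    rw [← P.ord_mul hx0 hu0, hmul, Place.ord_one]
  rcases lt_or_ge (P.ord (ι x)) 0 with hneg | hnn
  · -- pole of `x`: `u` vanishes at `P`
    right
    refine pc_chartOf ι hι P (hval P) (t := u) (a := 0) ?_
    have : InMax P (ι u) := Or.inr (by omega)
    simpa using this
  · obtain ⟨c, hc⟩ := hval P (ι x) hnn
    by_cases hcA : c ∈ A
    · left
      exact pc_chartOf ι hι P (hval P) (t := x) (a := ⟨c, hcA⟩) hc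
    · right
      have hc0 : c ≠ 0 := by
        rintro rfl
        exact hcA (zero_mem _)
      have hinv : c⁻¹ ∈ A := (A.mem_or_inv_mem c).resolve_left hcA
      refine pc_chartOf ι hι P (hval P) (t := u) (a := ⟨c⁻¹, hinv⟩) ?_
      -- `u - c⁻¹ = -(x - c) * (u * c⁻¹)`
      have hxn : ¬ InMax P (ι x) := by
        intro hx
        have := hx.sub hc
        rw [sub_sub_cancel] at this
        exact not_inMax_algebraMap hc0 this
      have hx0' : P.ord (ι x) = 0 := by
        rcases lt_or_eq_of_le hnn with h | h
        · exact absurd (Or.inr h) hxn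
        · exact h.symm
      have hu0' : 0 ≤ P.ord (ι u) := by omega
      have e : ι u - algebraMap L F ((⟨c⁻¹, hinv⟩ : A) : L)
          = (ι x - algebraMap L F c) * (-(algebraMap L F c⁻¹ * ι u)) := by
        have h1 : algebraMap L F c * algebraMap L F c⁻¹ = 1 := by
          rw [← map_mul, mul_inv_cancel₀ hc0, map_one]
        show ι u - algebraMap L F c⁻¹ = _
        linear_combination (algebraMap L F c⁻¹) * hmul - (ι u) * h1
      rw [e]
      refine hc.mul_right ?_
      rw [Fermat.Agent.S37.H940.ord_neg]
      exact Fermat.Agent.S37.H940.ord_nonneg_mul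
        (Fermat.Agent.S37.H940.ord_nonneg_const P _) hu0'

end PC

section QC

variable {L : Type*} [Field L] {A : ValuationSubring L}
variable {k Fk : Type*} [Field k] [Field Fk] [Algebra k Fk]
variable {V : Type*} [CommRing V] [Algebra A V]

/-- **Centred places, special fibre.** -/
theorem qc_chartOf (π : A →+* k) (ρ : V →+* Fk)
    (hρ : ∀ a : A, ρ (algebraMap A V a) = algebraMap k Fk (π a))
    (Q : Place k Fk) {t : V} (ht : 0 ≤ Q.ord (ρ t)) : QC ρ (chartOf (A := A) t) Q := by
  intro b hb
  refine ord_nonneg_of_mem_chartOf Q ρ (fun a => ?_) ht hb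
  rw [hρ]
  exact (Fermat.Agent.S24.FF.ord_algebraMap Q _).ge

/-- **Covering of the special fibre** by the charts of two inverse coordinates. -/
theorem cover_Q_chartOf (π : A →+* k) (ρ : V →+* Fk)
    (hρ : ∀ a : A, ρ (algebraMap A V a) = algebraMap k Fk (π a))
    {x u : V} (hxu : x * u = 1) (Q : Place k Fk) :
    QC ρ (chartOf (A := A) x) Q ∨ QC ρ (chartOf (A := A) u) Q := by
  have hmul : ρ x * ρ u = 1 := by rw [← map_mul, hxu, map_one]
  have hx0 : ρ x ≠ 0 := left_ne_zero_of_mul_eq_one hmul
  have hu0 : ρ u ≠ 0 := right_ne_zero_of_mul_eq_one hmul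
  have hord : Q.ord (ρ x) + Q.ord (ρ u) = 0 := by
    rw [← Q.ord_mul hx0 hu0, hmul, Place.ord_one]
  rcases lt_or_ge (Q.ord (ρ x)) 0 with hneg | hnn
  · right
    exact qc_chartOf π ρ hρ Q (by omega)
  · left
    exact qc_chartOf π ρ hρ Q hnn

end QC

end Fermat.Agent.S37.H868
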