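import Fermat.Agent.S18.H9.Res
import Fermat.Agent.S37.H868.Places
import Fermat.Agent.S37.H868.FullC
import Fermat.Agent.S37.H868.Frac

/-!
# S37 / R-d instantiation (helper868): `H518.TwoCharts` for `X₀(N)` over `A ⊆ Q̄`

`twoCharts_X0` : the two `j`-charts `B0` (integral over `A[j]`) and `B1` (integral over
`A[1/j]`) of `IntFun A (residue A) N` form a `H518.TwoCharts`, PROVIDED the six chart-local
inputs `ChartInputs` hold for both charts.  All global fields
(`RedStr`, `inj`, `mul_eq_one`, `trans01/10`, `cover_P/Q`, `Q_val`, `degP/Q`, `frac`, `FI`)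
are proved here from landed material (S28 `CoreData`, S24.FF, Lib/RR/H560, S18/H905, H700).

Consequently (`reductionInputsAlong_X0`) the Prelude's `ReductionInputsAlong A (residue A) N`
follows from `ChartInputs` for the two charts.
-/

set_option autoImplicit false
set_option linter.unusedSectionVars false
set_option linter.style.haveILetI false
set_option synthInstance.maxHeartbeats 400000
set_option maxHeartbeats 1000000

noncomputable section

namespace Fermat.Agent.S37.H868

open AlgebraicCurve ModularCurve HahnSeries Polynomial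
open Fermat.Agent.S24.H504 Fermat.Agent.S37.H518 Fermat.Agent.S37.H700
open Fermat.Agent.S28 (CoreData)

variable (N : ℕ) [NeZero N] (A : ValuationSubring Qb)

/-- The chart-local inputs of `H518.Chart` (everything except `x_mem`), for a chart `B` with
coordinate `x` of `IntFun A (residue A) N`. -/
structure ChartInputs (B : Subalgebra A (IntFun A (IsLocalRing.residue A) N))
    (x : IntFun A (IsLocalRing.residue A) N) : Prop where
  /-- q-expansion principle on the chart (piece R-a / G3) -/
  ker : ∀ b ∈ B, rhoF A (IsLocalRing.residue A) N b = 0 →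
    ∃ μ : A, IsLocalRing.residue A μ = 0 ∧ ∃ b' ∈ B, b = μ • b'
  /-- module-finiteness of the chart over `A[x]` -/
  fin : ∀ g : A[X], g.Monic → ∃ (r : ℕ) (e' : Fin r → IntFun A (IsLocalRing.residue A) N),
    (∀ j, e' j ∈ B) ∧ ∀ z ∈ B, ∃ α : Fin r → A, ∃ z' ∈ B, z = ∑ j, α j • e' j + aeval x g * z'
  /-- normality of the special fibre on the chart (piece R-b) -/
  Q_loc : ∀ Q : Place (IsLocalRing.ResidueField A)
      (modularFunctionFieldFullC (IsLocalRing.ResidueField A) N),
    QC (rhoF A (IsLocalRing.residue A) N) B Q →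
    ∀ f : modularFunctionFieldFullC (IsLocalRing.ResidueField A) N, 0 ≤ Q.ord f →
      ∃ a ∈ B, ∃ s ∈ B, ¬ InMax Q (rhoF A (IsLocalRing.residue A) N s) ∧
        f * rhoF A (IsLocalRing.residue A) N s = rhoF A (IsLocalRing.residue A) N a
  /-- local uniformisers on the generic fibre -/
  P_unif : ∀ P : Place Qb (laurentBaseChange Qb (modularFunctionFieldFull N)),
    PC (iotaF A (IsLocalRing.residue A) N) B P →
      ∃ w ∈ B, P.ord (iotaF A (IsLocalRing.residue A) N w) = 1
  /-- the chart separates the places of the generic fibre -/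
  P_sep : ∀ P P' : Place Qb (laurentBaseChange Qb (modularFunctionFieldFull N)),
    PC (iotaF A (IsLocalRing.residue A) N) B P → PC (iotaF A (IsLocalRing.residue A) N) B P' →
    P ≠ P' → ∃ s ∈ B, ¬ InMax P (iotaF A (IsLocalRing.residue A) N s) ∧
      InMax P' (iotaF A (IsLocalRing.residue A) N s)
  /-- existence of a reduction on the chart -/
  exists_red : ∀ P : Place Qb (laurentBaseChange Qb (modularFunctionFieldFull N)),
    PC (iotaF A (IsLocalRing.residue A) N) B P →
      ∃ Q : Place (IsLocalRing.ResidueField A)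
        (modularFunctionFieldFullC (IsLocalRing.ResidueField A) N),
        QC (rhoF A (IsLocalRing.residue A) N) B Q ∧
          RedTo (IsLocalRing.residue A) (iotaF A (IsLocalRing.residue A) N)
            (rhoF A (IsLocalRing.residue A) N) B P Q

variable {N A}

theorem ChartInputs.chart {B : Subalgebra A (IntFun A (IsLocalRing.residue A) N)}
    {x : IntFun A (IsLocalRing.residue A) N} (h : ChartInputs N A B x) (hx : x ∈ B) :
    Chart (IsLocalRing.residue A) (iotaF A (IsLocalRing.residue A) N)
      (rhoF A (IsLocalRing.residue A) N) B x where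
  x_mem := hx
  ker := h.ker
  fin := h.fin
  Q_loc := h.Q_loc
  P_unif := h.P_unif
  P_sep := h.P_sep
  exists_red := h.exists_red

/-- the primes dividing `N` are invertible in the residue field -/
theorem hchar_residue {ℓ : ℕ} (hℓ : ℓ.Prime) (hℓN : ¬ ℓ ∣ N) (hA : A.LiesOverPrime ℓ) :
    ∀ p : ℕ, p.Prime → p ∣ N → ((p : ℕ) : IsLocalRing.ResidueField A) ≠ 0 :=
  fun p hp hpN => Fermat.Agent.S18.H9.resChar Qb A ℓ p hℓ hp hA
    (fun h => hℓN (h ▸ hpN))

/-- **`H518.TwoCharts` for `X₀(N)`** from the chart-local inputs. -/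
theorem twoCharts_X0 {ℓ : ℕ} (hℓ : ℓ.Prime) (hℓN : ¬ ℓ ∣ N) (hA : A.LiesOverPrime ℓ)
    (hcore : CoreData N (IsLocalRing.ResidueField A))
    (h0 : ChartInputs N A (B0 A (IsLocalRing.residue A) N) (jI A (IsLocalRing.residue A) N))
    (h1 : ChartInputs N A (B1 A (IsLocalRing.residue A) N) (jInvI A (IsLocalRing.residue A) N)) :
    TwoCharts (IsLocalRing.residue A) (iotaF A (IsLocalRing.residue A) N)
      (rhoF A (IsLocalRing.residue A) N) (B0 A (IsLocalRing.residue A) N)
      (B1 A (IsLocalRing.residue A) N) (jI A (IsLocalRing.residue A) N)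
      (jInvI A (IsLocalRing.residue A) N) := by
  haveI : IsAlgClosed (IsLocalRing.ResidueField A) := Fermat.Agent.S18.H9.resAlgClosed Qb A
  have hchar := hchar_residue hℓ hℓN hA
  have hR : RedStr (IsLocalRing.residue A) (iotaF A (IsLocalRing.residue A) N)
      (rhoF A (IsLocalRing.residue A) N) :=
    redStr_intFun A (IsLocalRing.residue A) N IsLocalRing.residue_surjective
  refine { toRedStr := hR
           inj := iotaF_injective A _ N
           chart0 := h0.chart (jI_mem_B0 A _ N)
           chart1 := h1.chart (jInvI_mem_B1 A _ N)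
           mul_eq_one := jI_mul_jInvI A _ N
           trans01 := trans01 A _ N
           trans10 := trans10 A _ N
           cover_P := ?_
           cover_Q := ?_
           Q_val := ?_
           degP := ?_
           degQ := ?_
           frac := ?_
           FI := ?_ }
  · exact fun P => cover_P_chartOf _ hR.iota_alg (hval_bar Qb N) (jI_mul_jInvI A _ N) P
  · exact fun Q => cover_Q_chartOf _ _ hR.rho_alg (jI_mul_jInvI A _ N) Q
  · exact fun Q f hf => hval_fullC _ N hchar Q f hf
  · exact fun P => deg_bar Qb N P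
  · exact fun Q => deg_fullC _ N hchar Q
  · exact fun f hf => frac_X0 hcore f hf
  · intro D₁ E₁ hD₁ hE₁
    rw [sum_zero_inv_j_bar Qb N _ ?_ D₁ hD₁, sum_zero_inv_j_fullC _ N hchar _ ?_ E₁ hE₁]
    · show coeffMap (IsLocalRing.residue A) (jInvS A) = _
      rw [coeffMap_jInvS, jInvS_eq_inv]
    · show coeffMap A.subtype (jInvS A) = _
      rw [coeffMap_jInvS, jInvS_eq_inv]

/-- **The Prelude's `ReductionInputsAlong`** for `X₀(N)` at `A`, from the chart-local inputs. -/
theorem reductionInputsAlong_X0 {ℓ : ℕ} (hℓ : ℓ.Prime) (hℓN : ¬ ℓ ∣ N) (hA : A.LiesOverPrime ℓ)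
    (hcore : CoreData N (IsLocalRing.ResidueField A))
    (h0 : ChartInputs N A (B0 A (IsLocalRing.residue A) N) (jI A (IsLocalRing.residue A) N))
    (h1 : ChartInputs N A (B1 A (IsLocalRing.residue A) N) (jInvI A (IsLocalRing.residue A) N)) :
    ReductionInputsAlong A (IsLocalRing.residue A) N := by
  haveI : IsAlgClosed (IsLocalRing.ResidueField A) := Fermat.Agent.S18.H9.resAlgClosed Qb A
  haveI := hpd_bar Qb N
  haveI := hpd_fullC (IsLocalRing.ResidueField A) N (hchar_residue hℓ hℓN hA)
  exact reductionInputsAlong_of_twoCharts (twoCharts_X0 hℓ hℓN hA hcore h0 h1)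

end Fermat.Agent.S37.H868
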