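import Fermat.Agent.S37.H508.RimCharts
import Fermat.Agent.S37.H98.Gen
import Fermat.Agent.S37.H700.QepJ
import Fermat.Agent.S37.H868.TwoChartsX0

/-!
# S37 / node_rim (helper868): hand-in for helper508's assembly skeleton `H508/RimSkel.lean`

helper508's charts `finChart A N`, `infChart A N`, `jInt`, `jInvInt` coincide with `B0`, `B1`,
`jI`, `jInvI` of `H868/ChartDefs.lean`.  This file gives, with the EXACT statements of the
skeleton fields (namespace `Fermat.Agent.S37.H868.Rim`):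

* `hasPrincipalDivisors_Fk`, `Q_val`, `degQ`, `trans01`, `trans10`, `cover_P`, `cover_Q`, `frac`,
  `FI` (global fields), `ker_fin`, `ker_inf` (QEP, from helper700's `chart_ker`);
* `twoCharts_of_charts` : `TwoCharts` from the two `H518.Chart` structures only;
* `node_rim_of_charts` : `ReductionInputsModL A N` from the two `H518.Chart` structures.
-/

set_option autoImplicit false
set_option linter.unusedSectionVars false
set_option linter.style.haveILetI false
set_option synthInstance.maxHeartbeats 400000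
set_option maxHeartbeats 1000000

noncomputable section

namespace Fermat.Agent.S37.H868.Rim

open ModularCurve HahnSeries AlgebraicCurve Polynomial Fermat.Agent.S37.H518
open Fermat.Agent.S37.H508 Fermat.Agent.S24.H504

variable (N : ℕ) [NeZero N] {ℓ : ℕ} (hℓ : ℓ.Prime) (hℓN : ¬ ℓ ∣ N)
  (A : ValuationSubring (AlgebraicClosure ℚ)) (hA : A.LiesOverPrime ℓ)

local notation "πA" => IsLocalRing.residue A
local notation "kA" => IsLocalRing.ResidueField A
local notation "Fb" => modularFunctionFieldBar N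
local notation "Fk" => modularFunctionFieldFullC kA N
local notation "ιA" => iotaF A πA N
local notation "ρA" => rhoF A πA N

/-! ### identification of the two sets of definitions -/

theorem jInvS_eq : Fermat.Agent.S37.H868.jInvS A = Fermat.Agent.S37.H508.jInvS A :=
  Fermat.Agent.S37.H508.eq_jInvS_of_mul_eq_one (Fermat.Agent.S37.H868.jInvS_mul_jqModC A)

theorem jI_eq : jI A πA N = jInt A N := Subtype.ext rfl

theorem jInvI_eq : jInvI A πA N = jInvInt A N := Subtype.ext (jInvS_eq A)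

theorem B0_eq : B0 A πA N = finChart A N := by
  ext y
  rw [B0, mem_chartOf_iff_series]
  rfl

theorem B1_eq : B1 A πA N = infChart A N := by
  ext y
  rw [B1, mem_chartOf_iff_series, mem_infChart', coe_jInvI, jInvS_eq]
  rfl

/-! ### char-`ℓ` function field basics -/

include hℓ hℓN hA in
theorem hasPrincipalDivisors_Fk : HasPrincipalDivisors kA Fk :=
  haveI : IsAlgClosed kA := Fermat.Agent.S18.H9.resAlgClosed _ A
  hpd_fullC kA N (hchar_residue hℓ hℓN hA)

include hℓ hℓN hA in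
theorem Q_val (Q : Place kA Fk) (f : Fk) (hf : 0 ≤ Q.ord f) :
    ∃ c : kA, InMax Q (f - algebraMap kA Fk c) :=
  haveI : IsAlgClosed kA := Fermat.Agent.S18.H9.resAlgClosed _ A
  hval_fullC kA N (hchar_residue hℓ hℓN hA) Q f hf

include hℓ hℓN hA in
theorem degQ (Q : Place kA Fk) : Q.deg = 1 :=
  haveI : IsAlgClosed kA := Fermat.Agent.S18.H9.resAlgClosed _ A
  deg_fullC kA N (hchar_residue hℓ hℓN hA) Q

/-! ### gluing -/

theorem trans01 (b : IntFun A πA N) (hb : b ∈ infChart A N) :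
    ∃ n : ℕ, b * jInt A N ^ n ∈ finChart A N := by
  rw [← B1_eq] at hb
  rw [← B0_eq, ← jI_eq]
  exact Fermat.Agent.S37.H868.trans01 A πA N b hb

theorem trans10 (b : IntFun A πA N) (hb : b ∈ finChart A N) :
    ∃ n : ℕ, b * jInvInt A N ^ n ∈ infChart A N := by
  rw [← B0_eq] at hb
  rw [← B1_eq, ← jInvI_eq]
  exact Fermat.Agent.S37.H868.trans10 A πA N b hb

theorem redStr : RedStr πA ιA ρA :=
  redStr_intFun A πA N IsLocalRing.residue_surjective

theorem cover_P (P : Place (AlgebraicClosure ℚ) Fb) :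
    PC ιA (finChart A N) P ∨ PC ιA (infChart A N) P := by
  rw [← B0_eq, ← B1_eq]
  exact cover_P_chartOf _ (redStr N A).iota_alg (hval_bar _ N) (jI_mul_jInvI A _ N) P

theorem cover_Q (Q : Place kA Fk) : QC ρA (finChart A N) Q ∨ QC ρA (infChart A N) Q := by
  rw [← B0_eq, ← B1_eq]
  exact cover_Q_chartOf _ _ (redStr N A).rho_alg (jI_mul_jInvI A _ N) Q

include hℓ hℓN hA in
theorem frac (f : Fb) (hf : f ≠ 0) :
    ∃ a ∈ finChart A N, ∃ b ∈ finChart A N, ρA a ≠ 0 ∧ ρA b ≠ 0 ∧
      ∃ μ : AlgebraicClosure ℚ, μ ≠ 0 ∧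
        f * ιA b = algebraMap (AlgebraicClosure ℚ) Fb μ * ιA a := by
  rw [← B0_eq]
  exact frac_X0 (Fermat.Agent.S37.H98.coreData_residueField N ℓ hℓ hℓN A hA) f hf

include hℓ hℓN hA in
theorem FI (D₁ : Divisor (AlgebraicClosure ℚ) Fb) (E₁ : Divisor kA Fk)
    (hD : ∀ P, D₁ P = P.ord (ιA (jInvInt A N))) (hE : ∀ Q, E₁ Q = Q.ord (ρA (jInvInt A N))) :
    ∑ P ∈ D₁.support, max (D₁ P) 0 = ∑ Q ∈ E₁.support, max (E₁ Q) 0 := by
  haveI : IsAlgClosed kA := Fermat.Agent.S18.H9.resAlgClosed _ A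
  rw [sum_zero_inv_j_bar _ N _ ?_ D₁ hD,
    sum_zero_inv_j_fullC _ N (hchar_residue hℓ hℓN hA) _ ?_ E₁ hE]
  · show coeffMap πA (Fermat.Agent.S37.H508.jInvS A) = _
    rw [Fermat.Agent.S37.H508.coeffMap_jInvS, Fermat.Agent.S37.H508.jInvS_eq_inv]
  · show coeffMap A.subtype (Fermat.Agent.S37.H508.jInvS A) = _
    rw [Fermat.Agent.S37.H508.coeffMap_jInvS, Fermat.Agent.S37.H508.jInvS_eq_inv]

/-! ### QEP (from helper700's `chart_ker`) -/

include hℓ hℓN hA in
/-- QEP for the chart of a coordinate series `x'`. -/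
theorem ker_of_isCoord {x' : LaurentSeries A} (hx' : Fermat.Agent.S37.H700.IsCoord A x')
    (b : IntFun A πA N) (hb : IntOverS x' (b : LaurentSeries A)) (h0 : ρA b = 0) :
    ∃ (μ : A) (b' : IntFun A πA N), πA μ = 0 ∧ IntOverS x' (b' : LaurentSeries A) ∧
      b = μ • b' := by
  have hred : coeffMap πA (b : LaurentSeries A) = 0 := congrArg Subtype.val h0
  obtain ⟨μ, y', hμ, hyy', hy', -⟩ := Fermat.Agent.S37.H700.chart_ker hℓ hℓN hA hx'
    (y := (b : LaurentSeries A)) ⟨b.2.1, hb⟩ hred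
  have hy'k := (Fermat.Agent.S37.H700.chart_red_mem hℓ hℓN hA hy').1
  refine ⟨μ, ⟨y', hy'.1, hy'k⟩, hμ, hy'.2, ?_⟩
  apply Subtype.ext
  rw [hyy']
  rfl

include hℓ hℓN hA in
theorem ker_fin (b : IntFun A πA N) (hb : b ∈ finChart A N) (h0 : ρA b = 0) :
    ∃ μ : A, πA μ = 0 ∧ ∃ b' ∈ finChart A N, b = μ • b' := by
  obtain ⟨μ, b', hμ, hb', hbb'⟩ :=
    ker_of_isCoord N hℓ hℓN A hA (Fermat.Agent.S37.H700.isCoord_j A) b hb h0
  exact ⟨μ, hμ, b', hb', hbb'⟩

include hℓ hℓN hA in
theorem ker_inf (b : IntFun A πA N) (hb : b ∈ infChart A N) (h0 : ρA b = 0) :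
    ∃ μ : A, πA μ = 0 ∧ ∃ b' ∈ infChart A N, b = μ • b' := by
  obtain ⟨μ, b', hμ, hb', hbb'⟩ :=
    ker_of_isCoord N hℓ hℓN A hA
      (Fermat.Agent.S37.H700.isCoord_of_mul_eq_one A (Fermat.Agent.S37.H508.jInvS_mul_jqModC A))
      b hb h0
  exact ⟨μ, hμ, b', hb', hbb'⟩

/-! ### assembly from the two charts -/

include hℓ hℓN hA in
/-- **`TwoCharts` from the two chart structures**: all global fields are proved. -/
theorem twoCharts_of_charts
    (c0 : Chart πA ιA ρA (finChart A N) (jInt A N))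
    (c1 : Chart πA ιA ρA (infChart A N) (jInvInt A N)) :
    TwoCharts πA ιA ρA (finChart A N) (infChart A N) (jInt A N) (jInvInt A N) where
  toRedStr := redStr N A
  inj := iotaF_injective A πA N
  chart0 := c0
  chart1 := c1
  mul_eq_one := jInt_mul_jInvInt A N
  trans01 := trans01 N A
  trans10 := trans10 N A
  cover_P := cover_P N A
  cover_Q := cover_Q N A
  Q_val := Q_val N hℓ hℓN A hA
  degP := deg_bar _ N
  degQ := degQ N hℓ hℓN A hA
  frac := frac N hℓ hℓN A hA
  FI := FI N hℓ hℓN A hA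

include hℓ hℓN hA in
/-- **node_rim from the two chart structures.** -/
theorem node_rim_of_charts
    (c0 : Chart πA ιA ρA (finChart A N) (jInt A N))
    (c1 : Chart πA ιA ρA (infChart A N) (jInvInt A N)) :
    ReductionInputsModL A N := by
  haveI := hpd_bar (AlgebraicClosure ℚ) N
  haveI := hasPrincipalDivisors_Fk N hℓ hℓN A hA
  exact rim_of_twoCharts A N (twoCharts_of_charts N hℓ hℓN A hA c0 c1)

end Fermat.Agent.S37.H868.Rim
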